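import Mathlib

/-!
# S13, package T (abstract half): torsion points cut out by a polynomial in `x`

Everything here is about an abstract polynomial `D : K[X]` whose roots contain the `x`-coordinates
of a set of affine points of a Weierstrass curve.  No ladder, no `S05`.

* `exists_nonsingular_of_isAlgClosed` : over an algebraically closed field every `x` is the
  `x`-coordinate of a (nonsingular, if `Δ ≠ 0`) affine point.
* `finite_and_ncard_le_of_poly` : a set of points whose nonzero members have `x`-coordinate a root
  of `D ≠ 0`, `natDegree D ≤ d`, is finite of cardinality at most `2 * d + 1`.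
* `coeff_eq_mul_prod_inv` : for a valuation subring `A`, a polynomial `D` with coefficients in `A`,
  `natDegree D ≤ d`, and distinct roots `ξ ∉ A` (`ξ ∈ S`): `D.coeff d = ε * ∏ ξ⁻¹` with `ε ∈ A`.
-/

set_option autoImplicit false

namespace Fermat.Agent.S13.H56

open Polynomial WeierstrassCurve

universe u

variable {K : Type u} [Field K]

/-! ### Points above a given `x` -/

/-- The quadratic polynomial in `Y` whose roots are the `y` with `(x, y)` on the curve. -/
noncomputable def fibrePoly (W : Affine K) (x : K) : K[X] :=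
  X ^ 2 + C (W.a₁ * x + W.a₃) * X - C (x ^ 3 + W.a₂ * x ^ 2 + W.a₄ * x + W.a₆)

lemma fibrePoly_eval (W : Affine K) (x y : K) :
    (fibrePoly W x).eval y
      = y ^ 2 + W.a₁ * x * y + W.a₃ * y - (x ^ 3 + W.a₂ * x ^ 2 + W.a₄ * x + W.a₆) := by
  simp [fibrePoly]; ring

lemma fibrePoly_isRoot_iff (W : Affine K) (x y : K) :
    (fibrePoly W x).IsRoot y ↔ W.Equation x y := by
  rw [IsRoot, fibrePoly_eval, Affine.equation_iff, sub_eq_zero]

lemma fibrePoly_natDegree (W : Affine K) (x : K) : (fibrePoly W x).natDegree = 2 := by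
  unfold fibrePoly
  compute_degree!

lemma fibrePoly_ne_zero (W : Affine K) (x : K) : fibrePoly W x ≠ 0 := by
  intro h
  have := fibrePoly_natDegree W x
  rw [h] at this
  simp at this

/-- Over an algebraically closed field, every `x` is the `x`-coordinate of an affine point. -/
theorem exists_equation_of_isAlgClosed [IsAlgClosed K] (W : Affine K) (x : K) :
    ∃ y, W.Equation x y := by
  obtain ⟨y, hy⟩ := IsAlgClosed.exists_root (fibrePoly W x) (by
    rw [degree_eq_natDegree (fibrePoly_ne_zero W x), fibrePoly_natDegree]; norm_num)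
  exact ⟨y, (fibrePoly_isRoot_iff W x y).1 hy⟩

/-- Over an algebraically closed field, if `Δ ≠ 0`, every `x` is the `x`-coordinate of a
nonsingular affine point. -/
theorem exists_nonsingular_of_isAlgClosed [IsAlgClosed K] (W : Affine K) (hΔ : W.Δ ≠ 0) (x : K) :
    ∃ y, W.Nonsingular x y := by
  obtain ⟨y, hy⟩ := exists_equation_of_isAlgClosed W x
  exact ⟨y, (Affine.equation_iff_nonsingular_of_Δ_ne_zero hΔ).1 hy⟩

/-! ### Counting -/

/-- The coordinates of a point (`none` for the point at infinity). -/
def coords {W : Affine K} : W.Point → Option (K × K)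
  | .zero => none
  | .some x y _ => some (x, y)

lemma coords_injective {W : Affine K} : Function.Injective (coords (W := W)) := by
  rintro (_ | ⟨x, y, h⟩) (_ | ⟨x', y', h'⟩) hPQ
  · rfl
  · simp [coords] at hPQ
  · simp [coords] at hPQ
  · simp only [coords, Option.some.injEq, Prod.mk.injEq] at hPQ
    obtain ⟨rfl, rfl⟩ := hPQ
    rfl

open Classical in
/-- The finite set of affine solutions `(x, y)` of the curve equation with `x` a root of `D`. -/
noncomputable def solFinset (W : Affine K) (D : K[X]) : Finset (K × K) :=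
  D.roots.toFinset.biUnion fun x => (fibrePoly W x).roots.toFinset.image fun y => (x, y)

lemma card_solFinset_le (W : Affine K) (D : K[X]) (d : ℕ) (hd : D.natDegree ≤ d) :
    (solFinset W D).card ≤ 2 * d := by
  classical
  unfold solFinset
  refine (Finset.card_biUnion_le_card_mul _ _ 2 fun x _ => ?_).trans ?_
  · refine Finset.card_image_le.trans ?_
    refine (Multiset.toFinset_card_le _).trans ?_
    exact (card_roots' _).trans (fibrePoly_natDegree W x).le
  · have : D.roots.toFinset.card ≤ d :=
      ((Multiset.toFinset_card_le _).trans (card_roots' _)).trans hd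
    omega

lemma mem_solFinset {W : Affine K} {D : K[X]} (hD : D ≠ 0) {x y : K} (hx : D.eval x = 0)
    (h : W.Equation x y) : (x, y) ∈ solFinset W D := by
  classical
  unfold solFinset
  rw [Finset.mem_biUnion]
  refine ⟨x, ?_, ?_⟩
  · rw [Multiset.mem_toFinset, mem_roots hD]; exact hx
  · rw [Finset.mem_image]
    refine ⟨y, ?_, rfl⟩
    rw [Multiset.mem_toFinset, mem_roots (fibrePoly_ne_zero W x)]
    exact (fibrePoly_isRoot_iff W x y).2 h

/-- A set of points all of whose nonzero members have `x`-coordinate a root of the nonzero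
polynomial `D` of degree at most `d` is finite, with at most `2 * d + 1` elements. -/
theorem finite_and_ncard_le_of_poly (W : Affine K) (D : K[X]) (hD : D ≠ 0) (d : ℕ)
    (hd : D.natDegree ≤ d) (T : Set W.Point)
    (hT : ∀ (x y : K) (h : W.Nonsingular x y), Affine.Point.some x y h ∈ T → D.eval x = 0) :
    T.Finite ∧ T.ncard ≤ 2 * d + 1 := by
  classical
  have hsub : coords '' T ⊆ (insert none ((solFinset W D).image some) : Finset (Option (K × K))) := by
    rintro _ ⟨P, hP, rfl⟩
    rcases P with _ | ⟨x, y, h⟩
    · simp [coords]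
    · have := mem_solFinset hD (hT x y h hP) h.1
      simp only [coords, Finset.coe_insert, Finset.coe_image, Set.mem_insert_iff, reduceCtorEq,
        Set.mem_image, Finset.mem_coe, Option.some.injEq, exists_eq_right, false_or]
      exact this
  have hfin : (coords '' T).Finite := (Finset.finite_toSet _).subset hsub
  refine ⟨hfin.of_finite_image coords_injective.injOn, ?_⟩
  rw [← Set.ncard_image_of_injective T coords_injective]
  refine (Set.ncard_le_ncard hsub (Finset.finite_toSet _)).trans ?_
  rw [Set.ncard_coe_finset]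
  refine (Finset.card_insert_le _ _).trans ?_
  have := (Finset.card_image_le (s := solFinset W D) (f := some)).trans
    (card_solFinset_le W D d hd)
  omega

/-! ### The integrality product -/

/-- Key algebraic lemma: a polynomial with coefficients in a valuation subring `A`, of degree at
most `d`, having the distinct roots `ξ ∈ S`, none of them in `A`, has its coefficient in degree
`d` divisible in `A` by `∏ ξ⁻¹`. -/
theorem coeff_eq_mul_prod_inv (A : ValuationSubring K) (D : K[X]) (d : ℕ)
    (hdeg : D.natDegree ≤ d) (hA : ∀ i, D.coeff i ∈ A) (S : Finset K)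
    (hS : ∀ ξ ∈ S, ξ ∉ A ∧ D.eval ξ = 0) :
    ∃ ε ∈ A, D.coeff d = ε * ∏ ξ ∈ S, ξ⁻¹ := by
  classical
  -- the reflected polynomial
  set R : K[X] := reflect d D with hR
  have hRA : ∀ i, R.coeff i ∈ A := fun i => by rw [hR, coeff_reflect]; exact hA _
  have hroot : ∀ ξ ∈ S, R.eval ξ⁻¹ = 0 := by
    intro ξ hξ
    obtain ⟨hξA, hξ0⟩ := hS ξ hξ
    have hξne : ξ ≠ 0 := fun h => hξA (h ▸ A.zero_mem)
    let _ : Invertible ξ := invertibleOfNonzero hξne
    have h := eval₂_reflect_mul_pow (RingHom.id K) ξ d D hdeg
    rw [invOf_eq_inv] at h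
    simp only [eval₂_id] at h
    rw [hξ0] at h
    exact (mul_eq_zero.1 h).resolve_right (pow_ne_zero _ hξne)
  have hinvA : ∀ ξ ∈ S, ξ⁻¹ ∈ A := fun ξ hξ =>
    (A.mem_or_inv_mem ξ).resolve_left (hS ξ hξ).1
  -- factor out the roots one at a time, inside `A[X]`
  have key : ∀ T : Finset K, T ⊆ S →
      ∃ h : Polynomial A, R = (∏ ξ ∈ T, (X - C ξ⁻¹)) * h.map A.subtype := by
    intro T
    induction T using Finset.induction_on with
    | empty =>
      intro _
      have : R ∈ lifts A.subtype := by
        rw [lifts_iff_coeff_lifts]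
        intro n
        exact ⟨⟨R.coeff n, hRA n⟩, rfl⟩
      obtain ⟨h, hh⟩ := this
      exact ⟨h, by simpa using hh.symm⟩
    | insert ξ T hξT ih =>
      intro hTS
      obtain ⟨h, hh⟩ := ih ((Finset.subset_insert ξ T).trans hTS)
      have hξS : ξ ∈ S := hTS (Finset.mem_insert_self ξ T)
      have hξne : ξ ≠ 0 := fun h0 => (hS ξ hξS).1 (h0 ▸ A.zero_mem)
      -- `ξ⁻¹` is a root of `h`
      have h0 : (h.map A.subtype).eval ξ⁻¹ = 0 := by
        have h1 := hroot ξ hξS
        rw [hh, eval_mul, eval_prod] at h1
        refine (mul_eq_zero.1 h1).resolve_left (Finset.prod_ne_zero_iff.2 fun η hηT => ?_)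
        rw [eval_sub, eval_X, eval_C, sub_ne_zero]
        intro hηξ
        exact hξT (inv_injective hηξ ▸ hηT)
      set a : A := ⟨ξ⁻¹, hinvA ξ hξS⟩ with ha
      have h0' : h.eval a = 0 := by
        apply Subtype.val_injective
        have : (h.map A.subtype).eval (A.subtype a) = A.subtype (h.eval a) := by
          rw [eval_map, eval₂_at_apply]
        rw [ZeroMemClass.coe_zero]
        exact this.symm.trans h0
      obtain ⟨h', hh'⟩ := dvd_iff_isRoot.2 h0'
      refine ⟨h', ?_⟩
      rw [Finset.prod_insert hξT, hh, hh', Polynomial.map_mul, Polynomial.map_sub, map_X, map_C]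
      have : A.subtype a = ξ⁻¹ := rfl
      rw [this]
      ring
  obtain ⟨h, hh⟩ := key S subset_rfl
  refine ⟨(-1) ^ S.card * (h.eval 0 : A),
    mul_mem (pow_mem (neg_mem (one_mem A)) _) (h.eval 0).2, ?_⟩
  have h1 : D.coeff d = R.coeff 0 := by
    rw [hR, coeff_reflect, revAt_le (Nat.zero_le d), Nat.sub_zero]
  have h2 : (h.map A.subtype).eval 0 = ((h.eval 0 : A) : K) := by
    have : (h.map A.subtype).eval (A.subtype 0) = A.subtype (h.eval 0) := by
      rw [eval_map, eval₂_at_apply]
    rw [map_zero] at this
    exact this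
  clear_value R
  rw [h1, coeff_zero_eq_eval_zero, hh, eval_mul, eval_prod, h2]
  simp only [eval_sub, eval_X, eval_C, zero_sub]
  rw [Finset.prod_neg]
  ring

end Fermat.Agent.S13.H56
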