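import Mathlib
import Fermat.Agent.S05.Defs
import Fermat.Agent.S13.H15.Ladder
import Fermat.Agent.S13.H56.TorsionAbs

/-!
# S13, package T: consequences of the ladder link for `p`-torsion

Input: the ladder polynomials `ladD W k` of `Fermat.Agent.S13.H15` (degree `≤ 2k² + 2k`,
coefficient `-(2k+1)` there, compatible with base change) and the *link* (package L2)

  `(2k+1) • (x, y) = 0 ↔ (ladD W k).eval x = 0`   for every nonsingular affine point,

taken here as a hypothesis `LadLink W`.  Output, for an odd prime `p`: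

* `exists_torsion_point_of_link` : over an algebraically closed field of characteristic zero
  there is a nonzero point killed by `p`;
* `card_torsion_le_of_link` : in characteristic zero the points killed by `p` form a finite set of
  cardinality at most `p ^ 2`;
* `prod_inv_dvd_prime_of_link` : for a valuation subring `A` containing the coefficients, the
  product of `ξ⁻¹` over any finite set of non-integral `x`-coordinates of `p`-torsion points
  divides `p` in `A`.
-/

set_option autoImplicit false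

namespace Fermat.Agent.S13.H56

open Polynomial WeierstrassCurve
open Fermat.Agent.S13.H15

universe u

variable {K : Type u} [Field K] [DecidableEq K]

/-- The link between the ladder polynomial `ladD W k` and `(2k+1)`-torsion (package L2),
as a hypothesis. -/
def LadLink (W : Affine K) : Prop :=
  ∀ (k : ℕ) (x y : K) (h : W.Nonsingular x y),
    (2 * k + 1) • Affine.Point.some x y h = 0 ↔ (ladD W k).eval x = 0

omit [DecidableEq K] in
lemma ladD_natDegree_le (W : Affine K) (k : ℕ) : (ladD W k).natDegree ≤ 2 * k ^ 2 + 2 * k :=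
  (ladD_deg W k).1

omit [DecidableEq K] in
lemma ladD_coeff (W : Affine K) (k : ℕ) :
    (ladD W k).coeff (2 * k ^ 2 + 2 * k) = -((2 * k + 1 : ℕ) : K) :=
  (ladD_deg W k).2

omit [DecidableEq K] in
lemma ladD_ne_zero [CharZero K] (W : Affine K) (k : ℕ) : ladD W k ≠ 0 := by
  intro h
  have := ladD_coeff W k
  rw [h, coeff_zero, eq_comm, neg_eq_zero, Nat.cast_eq_zero] at this
  omega

omit [DecidableEq K] in
lemma ladD_natDegree [CharZero K] (W : Affine K) (k : ℕ) :
    (ladD W k).natDegree = 2 * k ^ 2 + 2 * k := by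
  refine le_antisymm (ladD_natDegree_le W k) (le_natDegree_of_ne_zero ?_)
  rw [ladD_coeff, neg_ne_zero, Nat.cast_ne_zero]
  omega

lemma exists_eq_two_mul_add_one {p : ℕ} (hp : p.Prime) (hp2 : p ≠ 2) :
    ∃ k : ℕ, 1 ≤ k ∧ p = 2 * k + 1 := by
  obtain ⟨k, hk⟩ := hp.odd_of_ne_two hp2
  refine ⟨k, ?_, hk⟩
  have := hp.two_le
  omega

/-- **T1.** Over an algebraically closed field of characteristic zero, a Weierstrass curve with
`Δ ≠ 0` has a nonzero point killed by the odd prime `p`. -/
theorem exists_torsion_point_of_link [IsAlgClosed K] [CharZero K] (W : Affine K) (hΔ : W.Δ ≠ 0)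
    (hlink : LadLink W) {p : ℕ} (hp : p.Prime) (hp2 : p ≠ 2) :
    ∃ P : W.Point, P ≠ 0 ∧ p • P = 0 := by
  obtain ⟨k, hk, rfl⟩ := exists_eq_two_mul_add_one hp hp2
  have hdeg : (ladD W k).degree ≠ 0 := by
    rw [degree_eq_natDegree (ladD_ne_zero W k), ladD_natDegree W k]
    have : 0 < 2 * k ^ 2 + 2 * k := by positivity
    exact_mod_cast this.ne'
  obtain ⟨x, hx⟩ := IsAlgClosed.exists_root (ladD W k) hdeg
  obtain ⟨y, hy⟩ := exists_nonsingular_of_isAlgClosed W hΔ x
  exact ⟨Affine.Point.some x y hy, Affine.Point.some_ne_zero hy, (hlink k x y hy).2 hx⟩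

/-- **T1'.** In characteristic zero, the points killed by the odd prime `p` form a finite set with
at most `p ^ 2` elements. -/
theorem card_torsion_le_of_link [CharZero K] (W : Affine K) (hlink : LadLink W) {p : ℕ}
    (hp : p.Prime) (hp2 : p ≠ 2) :
    Set.Finite {P : W.Point | p • P = 0} ∧ Set.ncard {P : W.Point | p • P = 0} ≤ p ^ 2 := by
  obtain ⟨k, hk, rfl⟩ := exists_eq_two_mul_add_one hp hp2
  obtain ⟨hfin, hcard⟩ := finite_and_ncard_le_of_poly W (ladD W k) (ladD_ne_zero W k)
    (2 * k ^ 2 + 2 * k) (ladD_natDegree_le W k) {P : W.Point | (2 * k + 1) • P = 0}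
    (fun x y h hP => (hlink k x y h).1 hP)
  refine ⟨hfin, hcard.trans (le_of_eq ?_)⟩
  ring

omit [DecidableEq K] in
/-- The coefficients of the ladder polynomial lie in any subring containing the coefficients of
the curve. -/
lemma ladD_coeff_mem (W : Affine K) (A : ValuationSubring K) (ha₁ : W.a₁ ∈ A) (ha₂ : W.a₂ ∈ A)
    (ha₃ : W.a₃ ∈ A) (ha₄ : W.a₄ ∈ A) (ha₆ : W.a₆ ∈ A) (k i : ℕ) : (ladD W k).coeff i ∈ A := by
  let WA : WeierstrassCurve A := ⟨⟨W.a₁, ha₁⟩, ⟨W.a₂, ha₂⟩, ⟨W.a₃, ha₃⟩, ⟨W.a₄, ha₄⟩, ⟨W.a₆, ha₆⟩⟩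
  have hW : W = WA.map A.subtype := by ext <;> rfl
  rw [hW, ladD_map, coeff_map]
  exact Subtype.mem _

/-- **T2.** For a valuation subring `A` containing the coefficients of `W`, and any finite set `S`
of non-integral `x`-coordinates of nonzero points killed by the odd prime `p`, the product of
the `ξ⁻¹` (`ξ ∈ S`) divides `p` in `A`. -/
theorem prod_inv_dvd_prime_of_link (W : Affine K) (hlink : LadLink W) (A : ValuationSubring K)
    (ha₁ : W.a₁ ∈ A) (ha₂ : W.a₂ ∈ A) (ha₃ : W.a₃ ∈ A) (ha₄ : W.a₄ ∈ A) (ha₆ : W.a₆ ∈ A)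
    {p : ℕ} (hp : p.Prime) (hp2 : p ≠ 2) (S : Finset K)
    (hS : ∀ ξ ∈ S, ξ ∉ A ∧ ∃ P : W.Point, P ≠ 0 ∧ p • P = 0 ∧ Fermat.Agent.S05.xOf P = ξ) :
    ∃ ε ∈ A, (p : K) = ε * ∏ ξ ∈ S, ξ⁻¹ := by
  obtain ⟨k, hk, rfl⟩ := exists_eq_two_mul_add_one hp hp2
  obtain ⟨ε, hε, h⟩ := coeff_eq_mul_prod_inv A (ladD W k) (2 * k ^ 2 + 2 * k)
    (ladD_natDegree_le W k) (ladD_coeff_mem W A ha₁ ha₂ ha₃ ha₄ ha₆ k) S (by
      intro ξ hξ
      obtain ⟨hξA, P, hP0, hpP, hxP⟩ := hS ξ hξ
      refine ⟨hξA, ?_⟩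
      rcases P with _ | ⟨x, y, hxy⟩
      · exact absurd rfl hP0
      · have hx : x = ξ := hxP
        subst hx
        exact (hlink k x y hxy).1 hpP)
  refine ⟨-ε, neg_mem hε, ?_⟩
  rw [ladD_coeff] at h
  rw [neg_mul, ← h, neg_neg]

end Fermat.Agent.S13.H56

/-! ### Corollaries in the shape of the torsion submodule -/

namespace Fermat.Agent.S13.H56

open WeierstrassCurve

universe u

variable {K : Type u} [Field K] [DecidableEq K]

lemma torsionBy_eq_setOf (W : Affine K) (p : ℕ) :
    ((Submodule.torsionBy ℤ W.Point p : Submodule ℤ W.Point) : Set W.Point)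
      = {P : W.Point | p • P = 0} := by
  ext P
  simp only [SetLike.mem_coe, Submodule.mem_torsionBy_iff, Set.mem_ofPred_eq]
  rw [← Nat.cast_smul_eq_nsmul ℤ p P]

/-- The `p`-torsion submodule is finite, with at most `p ^ 2` elements. -/
theorem natCard_torsionBy_le_of_link [CharZero K] (W : Affine K) (hlink : LadLink W) {p : ℕ}
    (hp : p.Prime) (hp2 : p ≠ 2) :
    Finite (Submodule.torsionBy ℤ W.Point p) ∧
      Nat.card (Submodule.torsionBy ℤ W.Point p) ≤ p ^ 2 := by
  obtain ⟨hfin, hcard⟩ := card_torsion_le_of_link W hlink hp hp2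
  rw [← torsionBy_eq_setOf] at hfin hcard
  exact ⟨hfin, by rw [← Nat.card_coe_set_eq] at hcard; exact hcard⟩

/-- The `p`-torsion submodule is nontrivial over an algebraically closed field of characteristic
zero. -/
theorem nontrivial_torsionBy_of_link [IsAlgClosed K] [CharZero K] (W : Affine K) (hΔ : W.Δ ≠ 0)
    (hlink : LadLink W) {p : ℕ} (hp : p.Prime) (hp2 : p ≠ 2) :
    Nontrivial (Submodule.torsionBy ℤ W.Point p) := by
  obtain ⟨P, hP0, hpP⟩ := exists_torsion_point_of_link W hΔ hlink hp hp2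
  have hP : P ∈ Submodule.torsionBy ℤ W.Point p := by
    rw [Submodule.mem_torsionBy_iff, Nat.cast_smul_eq_nsmul ℤ p P]; exact hpP
  exact ⟨⟨⟨P, hP⟩, 0, fun h => hP0 (congrArg Subtype.val h)⟩⟩

/-- A finite `ZMod p`-module with at most `p ^ 2` elements has dimension at most `2`. -/
theorem finrank_le_two_of_natCard_le {p : ℕ} [Fact p.Prime] (V : Type*) [AddCommGroup V]
    [Module (ZMod p) V] [Finite V] (h : Nat.card V ≤ p ^ 2) : Module.finrank (ZMod p) V ≤ 2 := by
  have h1 : Nat.card V = p ^ Module.finrank (ZMod p) V := by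
    rw [Module.natCard_eq_pow_finrank (K := ZMod p) (V := V), Nat.card_zmod]
  rw [h1] at h
  exact (Nat.pow_le_pow_iff_right (Fact.out : p.Prime).one_lt).1 h

end Fermat.Agent.S13.H56
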