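import Mathlib
import Fermat.Agent.S13.H61.Link
import Fermat.Agent.S13.H56.Torsion

/-!
# S13, package T: final statements (exact skeleton shapes)

`exists_torsion_point` (T1), `card_torsion_le` (T1'), `prod_inv_dvd_prime` (T2) in the exact shapes
of the S13 skeleton, obtained from `Torsion.lean` by discharging the link hypothesis with
`Fermat.Agent.S13.H61.nsmul_some_eq_zero_iff_ladD`.  The hypotheses `hΔ` / `CharZero` that are not
needed are kept only where the skeleton has them; the primed versions are the sharper forms.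
-/

set_option autoImplicit false

open WeierstrassCurve WeierstrassCurve.Affine WeierstrassCurve.Affine.Point

namespace Fermat.Agent.S13.H56

/-- The link (package L2, landed by helper61) in the hypothesis shape of `Torsion.lean`. -/
theorem ladLink {K : Type*} [Field K] [DecidableEq K] (W : Affine K) : LadLink W :=
  fun k _ _ h => Fermat.Agent.S13.H61.nsmul_some_eq_zero_iff_ladD W h k

/-- **T1.** -/
theorem exists_torsion_point {K : Type*} [Field K] [DecidableEq K] [IsAlgClosed K] [CharZero K]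
    (W : Affine K) (hΔ : W.Δ ≠ 0) {p : ℕ} (hp : p.Prime) (hp2 : p ≠ 2) :
    ∃ P : W.Point, P ≠ 0 ∧ p • P = 0 :=
  exists_torsion_point_of_link W hΔ (ladLink W) hp hp2

/-- **T1'** (sharp form: no hypothesis on `Δ`). -/
theorem card_torsion_le' {K : Type*} [Field K] [DecidableEq K] [CharZero K]
    (W : Affine K) {p : ℕ} (hp : p.Prime) (hp2 : p ≠ 2) :
    Set.Finite {P : W.Point | p • P = 0} ∧ Set.ncard {P : W.Point | p • P = 0} ≤ p ^ 2 :=
  card_torsion_le_of_link W (ladLink W) hp hp2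

/-- **T1'.** -/
theorem card_torsion_le {K : Type*} [Field K] [DecidableEq K] [CharZero K]
    (W : Affine K) (hΔ : W.Δ ≠ 0) {p : ℕ} (hp : p.Prime) (hp2 : p ≠ 2) :
    Set.Finite {P : W.Point | p • P = 0} ∧ Set.ncard {P : W.Point | p • P = 0} ≤ p ^ 2 :=
  have _ := hΔ
  card_torsion_le' W hp hp2

/-- **T2** (sharp form: any field, no hypothesis on `Δ`). -/
theorem prod_inv_dvd_prime' {K : Type*} [Field K] [DecidableEq K]
    (W : Affine K) (A : ValuationSubring K)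
    (ha₁ : W.a₁ ∈ A) (ha₂ : W.a₂ ∈ A) (ha₃ : W.a₃ ∈ A) (ha₄ : W.a₄ ∈ A) (ha₆ : W.a₆ ∈ A)
    {p : ℕ} (hp : p.Prime) (hp2 : p ≠ 2) (S : Finset K)
    (hS : ∀ ξ ∈ S, ξ ∉ A ∧ ∃ P : W.Point, P ≠ 0 ∧ p • P = 0 ∧ Fermat.Agent.S05.xOf P = ξ) :
    ∃ ε ∈ A, (p : K) = ε * ∏ ξ ∈ S, ξ⁻¹ :=
  prod_inv_dvd_prime_of_link W (ladLink W) A ha₁ ha₂ ha₃ ha₄ ha₆ hp hp2 S hS

/-- **T2**: the product of the inverses of the non-integral `x`-coordinates of nonzero `p`-torsion
points divides `p` in `A`. -/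
theorem prod_inv_dvd_prime {K : Type*} [Field K] [DecidableEq K] [CharZero K]
    (W : Affine K) (hΔ : W.Δ ≠ 0) (A : ValuationSubring K)
    (ha₁ : W.a₁ ∈ A) (ha₂ : W.a₂ ∈ A) (ha₃ : W.a₃ ∈ A) (ha₄ : W.a₄ ∈ A) (ha₆ : W.a₆ ∈ A)
    {p : ℕ} (hp : p.Prime) (hp2 : p ≠ 2) (S : Finset K)
    (hS : ∀ ξ ∈ S, ξ ∉ A ∧ ∃ P : W.Point, P ≠ 0 ∧ p • P = 0 ∧ Fermat.Agent.S05.xOf P = ξ) :
    ∃ ε ∈ A, (p : K) = ε * ∏ ξ ∈ S, ξ⁻¹ :=
  have _ := hΔ
  prod_inv_dvd_prime' W A ha₁ ha₂ ha₃ ha₄ ha₆ hp hp2 S hS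

/-- The `p`-torsion submodule is finite with at most `p ^ 2` elements. -/
theorem natCard_torsionBy_le {K : Type*} [Field K] [DecidableEq K] [CharZero K] (W : Affine K)
    {p : ℕ} (hp : p.Prime) (hp2 : p ≠ 2) :
    Finite (Submodule.torsionBy ℤ W.Point p) ∧
      Nat.card (Submodule.torsionBy ℤ W.Point p) ≤ p ^ 2 :=
  natCard_torsionBy_le_of_link W (ladLink W) hp hp2

/-- The `p`-torsion submodule is nontrivial over an algebraically closed field of characteristic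
zero. -/
theorem nontrivial_torsionBy {K : Type*} [Field K] [DecidableEq K] [IsAlgClosed K] [CharZero K]
    (W : Affine K) (hΔ : W.Δ ≠ 0) {p : ℕ} (hp : p.Prime) (hp2 : p ≠ 2) :
    Nontrivial (Submodule.torsionBy ℤ W.Point p) :=
  nontrivial_torsionBy_of_link W hΔ (ladLink W) hp hp2

end Fermat.Agent.S13.H56
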